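/-
M3 (S24 cluster), Bridge (Br0): the analytic `kleinJ` has `q`-expansion equal to the prelude's
formal `jq = q⁻¹ · eisenstein4³ · (etaProd²⁴)⁻¹`.
-/
import Mathlib
import Fermat.Prelude.Def_ModularCurve_X0
import Fermat.Prelude.Thm_UpperHalfPlane_qExpansion_prod
import Fermat.Agent.S24.KleinJ

set_option autoImplicit false

open UpperHalfPlane ModularForm EisensteinSeries Filter Topology Function Complex
open scoped MatrixGroups Manifold Real
open Fermat.Agent.S23.QF (IsQFun)

namespace Fermat.Agent.S24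

local notation "Δ" => ModularForm.discriminant
local notation "𝕢" => Periodic.qParam

/-! ### `E₄` -/

theorem br_qExpansion_E4 :
    qExpansion 1 (⇑E₄ : ℍ → ℂ) = ModularCurve.eisenstein4.map (Int.castRingHom ℂ) := by
  ext m
  rw [E_qExpansion_coeff (by norm_num) ⟨2, rfl⟩ m, PowerSeries.coeff_map, ModularCurve.eisenstein4,
    PowerSeries.coeff_mk]
  split_ifs with h
  · simp
  · have hb : bernoulli 4 = -1 / 30 := by
      rw [bernoulli, bernoulli'_four]; norm_num
    rw [hb, ArithmeticFunction.sigma_apply, eq_intCast]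
    push_cast
    ring

/-! ### tail estimate for the Euler product -/

theorem br_multipliable_tail {q : ℂ} (hq : ‖q‖ < 1) (M : ℕ) :
    Multipliable fun n : ℕ => 1 - q ^ (n + M + 1) := by
  have hs : Summable fun n : ℕ => ‖-q ^ (n + M + 1)‖ := by
    simp only [norm_neg, norm_pow]
    have h0 := summable_geometric_of_lt_one (norm_nonneg q) hq
    have h1 := (summable_nat_add_iff (f := fun n : ℕ => ‖q‖ ^ n) (M + 1)).mpr h0
    simpa [add_assoc] using h1
  have := multipliable_one_add_of_summable hs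
  simpa [sub_eq_add_neg] using this

theorem br_geom_sum_le_two {x : ℝ} (h0 : 0 ≤ x) (h : x ≤ 1 / 2) (k : ℕ) :
    ∑ n ∈ Finset.range k, x ^ n ≤ 2 := by
  have h1 := geom_sum_mul_neg x k
  have h2 : (∑ n ∈ Finset.range k, x ^ n) * (1 - x) ≤ 1 := by
    rw [h1]; linarith [pow_nonneg h0 k]
  have h3 : 0 ≤ ∑ n ∈ Finset.range k, x ^ n := Finset.sum_nonneg fun n _ => pow_nonneg h0 n
  nlinarith

theorem br_tail_bound {q : ℂ} (hq : ‖q‖ ≤ 1 / 2) (M : ℕ) :
    ‖∏' n : ℕ, (1 - q ^ (n + M + 1)) - 1‖ ≤ 4 * ‖q‖ ^ (M + 1) := by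
  have hq1 : ‖q‖ < 1 := lt_of_le_of_lt hq (by norm_num)
  have hq0 : 0 ≤ ‖q‖ := norm_nonneg q
  have hmul := br_multipliable_tail hq1 M
  have hfin : ∀ k : ℕ, ‖∏ n ∈ Finset.range k, (1 - q ^ (n + M + 1)) - 1‖ ≤ 4 * ‖q‖ ^ (M + 1) := by
    intro k
    have h1 := Finset.norm_prod_one_add_sub_one_le (Finset.range k) (fun n => -q ^ (n + M + 1))
    simp only [← sub_eq_add_neg, norm_neg, norm_pow] at h1
    refine h1.trans ?_
    have hS0 : 0 ≤ ∑ n ∈ Finset.range k, ‖q‖ ^ (n + M + 1) :=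
      Finset.sum_nonneg fun n _ => pow_nonneg hq0 _
    have hS : ∑ n ∈ Finset.range k, ‖q‖ ^ (n + M + 1) ≤ 2 * ‖q‖ ^ (M + 1) := by
      have : ∑ n ∈ Finset.range k, ‖q‖ ^ (n + M + 1)
          = ‖q‖ ^ (M + 1) * ∑ n ∈ Finset.range k, ‖q‖ ^ n := by
        rw [Finset.mul_sum]
        refine Finset.sum_congr rfl fun n _ => ?_
        rw [← pow_add]; congr 1; ring
      rw [this, mul_comm 2]
      exact mul_le_mul_of_nonneg_left (br_geom_sum_le_two hq0 hq k) (pow_nonneg hq0 _)
    have hpow : ‖q‖ ^ (M + 1) ≤ 1 / 2 := by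
      calc ‖q‖ ^ (M + 1) ≤ ‖q‖ ^ 1 := pow_le_pow_of_le_one hq0 hq1.le (by omega)
        _ = ‖q‖ := pow_one _
        _ ≤ 1 / 2 := hq
    set S := ∑ n ∈ Finset.range k, ‖q‖ ^ (n + M + 1) with hSdef
    have hS1 : |S| ≤ 1 := by rw [abs_of_nonneg hS0]; linarith
    have h2 := Real.abs_exp_sub_one_le hS1
    rw [abs_of_nonneg hS0] at h2
    have h3 := le_abs_self (Real.exp S - 1)
    linarith
  have ht := hmul.hasProd.tendsto_prod_nat
  have ht2 : Tendsto (fun k => ‖∏ n ∈ Finset.range k, (1 - q ^ (n + M + 1)) - 1‖) atTop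
      (𝓝 ‖∏' n : ℕ, (1 - q ^ (n + M + 1)) - 1‖) :=
    ((ht.sub_const 1).norm)
  exact le_of_tendsto' ht2 hfin

/-! ### the formal Euler product -/

section formal
open PowerSeries
open scoped PowerSeries.WithPiTopology

/-- the partial products of the formal Euler product -/
noncomputable def brPartPS (R : Type*) [CommRing R] (M : ℕ) : PowerSeries R :=
  ∏ n ∈ Finset.range M, (1 - PowerSeries.X ^ (n + 1))

theorem br_coeff_partPS_succ (R : Type*) [CommRing R] {k K : ℕ} (h : k ≤ K) :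
    PowerSeries.coeff k (brPartPS R (K + 1)) = PowerSeries.coeff k (brPartPS R K) := by
  unfold brPartPS
  rw [Finset.prod_range_succ, mul_sub, mul_one, map_sub, PowerSeries.coeff_mul_X_pow',
    if_neg (by omega), sub_zero]

theorem br_coeff_partPS_of_le (R : Type*) [CommRing R] {k M K : ℕ} (h : k ≤ M) (hK : M ≤ K) :
    PowerSeries.coeff k (brPartPS R K) = PowerSeries.coeff k (brPartPS R M) := by
  induction K, hK using Nat.le_induction with
  | base => rfl
  | succ K hK ih => rw [br_coeff_partPS_succ R (h.trans hK), ih]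

theorem br_coeff_etaProd {k M : ℕ} (h : k ≤ M) :
    PowerSeries.coeff k ModularCurve.etaProd = PowerSeries.coeff k (brPartPS ℤ M) := by
  have hm := (PowerSeries.WithPiTopology.multipliable_one_sub_X_pow ℤ).hasProd.tendsto_prod_nat
  have h1 := ((PowerSeries.WithPiTopology.continuous_coeff (R := ℤ) k).tendsto _).comp hm
  have h2 : Tendsto ((PowerSeries.coeff (R := ℤ) k) ∘ fun K : ℕ =>
      ∏ n ∈ Finset.range K, ((1 : PowerSeries ℤ) - PowerSeries.X ^ (n + 1))) atTop
      (𝓝 (PowerSeries.coeff k (brPartPS ℤ M))) := by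
    refine tendsto_const_nhds.congr' ?_
    filter_upwards [eventually_ge_atTop M] with K hK
    exact (br_coeff_partPS_of_le ℤ h hK).symm
  exact tendsto_nhds_unique h1 h2

end formal

/-! ### the analytic Euler product -/

theorem br_norm_qH_lt_one (z : ℍ) : ‖qH z‖ < 1 := Periodic.norm_qParam_lt_one one_pos z.im_pos

/-- Euler's function `∏ (1 - qⁿ)` on the upper half plane -/
noncomputable def brEta1 (z : ℍ) : ℂ := ∏' n : ℕ, (1 - qH z ^ (n + 1))

/-- its partial products -/
noncomputable def brPart (M : ℕ) : ℍ → ℂ := ∏ n ∈ Finset.range M, (1 - qH ^ (n + 1))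

theorem brPart_apply (M : ℕ) (z : ℍ) :
    brPart M z = ∏ n ∈ Finset.range M, (1 - qH z ^ (n + 1)) := by
  simp [brPart, Finset.prod_apply]

theorem brEta1_eq_part_mul_tail (M : ℕ) (z : ℍ) :
    brEta1 z = brPart M z * ∏' n : ℕ, (1 - qH z ^ (n + M + 1)) := by
  rw [brPart_apply, brEta1]
  exact (Multipliable.prod_mul_tprod_nat_mul' (f := fun n : ℕ => 1 - qH z ^ (n + 1)) (k := M)
    (br_multipliable_tail (br_norm_qH_lt_one z) M)).symm

theorem brEta1_pow (z : ℍ) : brEta1 z ^ 24 = etaProdH z := by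
  rw [brEta1, ← (multipliable_one_sub_pow (br_norm_qH_lt_one z)).tprod_pow, etaProdH, Pi.div_apply,
    discriminant_eq_q_prod z, qH, mul_div_cancel_left₀ _ (Periodic.qParam_ne_zero _)]

theorem isQFun_brPart (M : ℕ) : IsQFun (brPart M) :=
  IsQFun.prod _ fun n _ => IsQFun.one.sub (isQFun_qH.pow (n + 1))

theorem brEta1_mdiff : MDiff brEta1 := by
  rw [UpperHalfPlane.mdifferentiable_iff]
  have h1 : DifferentiableOn ℂ ((fun q : ℂ => ∏' n : ℕ, (1 - q ^ (n + 1))) ∘ (𝕢 1))
      {w : ℂ | 0 < w.im} := by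
    refine differentiableOn_tprod_one_sub_pow.comp
      (Periodic.differentiable_qParam (h := 1)).differentiableOn fun w hw => ?_
    simpa using Periodic.norm_qParam_lt_one one_pos hw
  refine h1.congr fun w hw => ?_
  simp [brEta1, qH, ofComplex_apply_of_im_pos hw]

theorem brEta1_periodic : Periodic (brEta1 ∘ ofComplex) (1 : ℂ) := by
  intro w
  have h := qH_periodic w
  simp only [comp_apply] at h ⊢
  simp only [brEta1, h]

theorem br_eventually_norm_qH_le : ∀ᶠ z in atImInfty, ‖qH z‖ ≤ 1 / 2 := by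
  have := qH_tendsto.eventually (Metric.closedBall_mem_nhds (0 : ℂ) (by norm_num : (0:ℝ) < 1 / 2))
  filter_upwards [this] with z hz
  simpa using hz

theorem brEta1_bdd : IsBoundedAtImInfty brEta1 := by
  refine Asymptotics.IsBigO.of_bound 3 ?_
  filter_upwards [br_eventually_norm_qH_le] with z hz
  have h := br_tail_bound hz 0
  have h0 := brEta1_eq_part_mul_tail 0 z
  simp only [brPart_apply, Finset.range_zero, Finset.prod_empty, one_mul, add_zero] at h0
  rw [← h0] at h
  have h2 : ‖brEta1 z‖ ≤ ‖brEta1 z - 1‖ + 1 := by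
    have := norm_add_le (brEta1 z - 1) 1
    simpa using this
  simp only [Pi.one_apply, norm_one, mul_one]
  have h3 : ‖qH z‖ ^ (0 + 1) = ‖qH z‖ := by simp
  rw [h3] at h
  linarith

theorem isQFun_brEta1 : IsQFun brEta1 := ⟨brEta1_mdiff, brEta1_periodic, brEta1_bdd⟩

/-- the remainder `(∏ (1 - qⁿ) - partial product) / q^(M+1)` -/
noncomputable def brRem (M : ℕ) : ℍ → ℂ := (brEta1 - brPart M) / qH ^ (M + 1)

theorem isQFun_brRem (M : ℕ) : IsQFun (brRem M) := by
  refine ⟨MDifferentiable.div (brEta1_mdiff.sub (isQFun_brPart M).mdiff) (qH_mdiff.pow (M + 1))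
    fun z => pow_ne_zero _ (qH_ne_zero z), ?_, ?_⟩
  · have : (brRem M) ∘ ofComplex = ((brEta1 ∘ ofComplex) - (brPart M ∘ ofComplex)) /
        ((qH ^ (M + 1)) ∘ ofComplex) := rfl
    rw [this]
    exact (brEta1_periodic.sub (isQFun_brPart M).periodic).div (isQFun_qH.pow (M + 1)).periodic
  · obtain ⟨C, hC⟩ := (isQFun_brPart M).bdd.bound
    refine Asymptotics.IsBigO.of_bound (C * 4) ?_
    filter_upwards [br_eventually_norm_qH_le, hC] with z hz hCz
    have h := br_tail_bound hz M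
    have h0 := brEta1_eq_part_mul_tail M z
    have hq : 0 < ‖qH z‖ ^ (M + 1) := pow_pos (norm_pos_iff.mpr (qH_ne_zero z)) _
    simp only [Pi.one_apply, norm_one, mul_one] at hCz ⊢
    have e1 : brRem M z = brPart M z * ((∏' n : ℕ, (1 - qH z ^ (n + M + 1))) - 1) / qH z ^ (M + 1) := by
      simp only [brRem, Pi.div_apply, Pi.sub_apply, Pi.pow_apply, h0]
      ring
    rw [e1, norm_div, norm_mul, norm_pow, div_le_iff₀ hq]
    calc ‖brPart M z‖ * ‖(∏' n : ℕ, (1 - qH z ^ (n + M + 1))) - 1‖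
        ≤ C * (4 * ‖qH z‖ ^ (M + 1)) :=
          mul_le_mul hCz h (norm_nonneg _) ((norm_nonneg _).trans hCz)
      _ = C * 4 * ‖qH z‖ ^ (M + 1) := by ring

theorem brEta1_eq (M : ℕ) : brEta1 = brPart M + qH ^ (M + 1) * brRem M := by
  ext z
  simp only [brRem, Pi.add_apply, Pi.mul_apply, Pi.div_apply, Pi.sub_apply, Pi.pow_apply]
  field_simp [qH_ne_zero z]
  ring

/-! ### `q`-expansions -/

theorem br_qExpansion_coeff_unique {f : ℍ → ℂ} {c : ℕ → ℂ} (hf : IsQFun f)
    (hs : ∀ τ : ℍ, HasSum (fun m : ℕ => c m • 𝕢 1 (τ : ℂ) ^ m) (f τ)) (m : ℕ) :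
    c m = (qExpansion 1 f).coeff m := by
  have h1 := (hasFPowerSeriesOnBall_cuspFunction one_pos hf.analyticAt hs).hasFPowerSeriesAt
  have h2 := hf.analyticAt.hasFPowerSeriesAt
  have h3 := congr_arg (FormalMultilinearSeries.coeff · m) (h1.eq_formalMultilinearSeries h2)
  simp only [FormalMultilinearSeries.coeff_ofScalars] at h3
  rw [h3, qExpansion_coeff, div_eq_mul_inv, mul_comm]

theorem br_qExpansion_qH : qExpansion 1 qH = PowerSeries.X := by
  ext m
  have hs : ∀ τ : ℍ, HasSum (fun m : ℕ => (if m = 1 then (1:ℂ) else 0) • 𝕢 1 (τ:ℂ) ^ m) (qH τ) := by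
    intro τ
    have := hasSum_ite_eq (1 : ℕ) (qH τ)
    refine this.congr_fun fun n => ?_
    by_cases hn : n = 1
    · subst hn; simp [qH]
    · simp [hn]
  have key := br_qExpansion_coeff_unique isQFun_qH hs m
  rw [← key, PowerSeries.coeff_X]
theorem br_qExpansion_brPart (M : ℕ) : qExpansion 1 (brPart M) = brPartPS ℂ M := by
  unfold brPart brPartPS
  rw [UpperHalfPlane.qExpansion_prod _ fun n _ => (IsQFun.one.sub (isQFun_qH.pow (n + 1))).analyticAt]
  refine Finset.prod_congr rfl fun n _ => ?_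
  rw [qExpansion_sub IsQFun.one.analyticAt (isQFun_qH.pow (n + 1)).analyticAt, qExpansion_one,
    Fermat.Agent.S23.QF.qExpansion_pow_of_isQFun isQFun_qH, br_qExpansion_qH]

theorem br_map_partPS (M : ℕ) :
    (brPartPS ℤ M).map (Int.castRingHom ℂ) = brPartPS ℂ M := by
  simp [brPartPS, map_prod]

theorem br_qExpansion_brEta1 :
    qExpansion 1 brEta1 = ModularCurve.etaProd.map (Int.castRingHom ℂ) := by
  ext k
  have h1 : qExpansion 1 brEta1
      = brPartPS ℂ k + PowerSeries.X ^ (k + 1) * qExpansion 1 (brRem k) := by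
    conv_lhs => rw [brEta1_eq k]
    rw [qExpansion_add (isQFun_brPart k).analyticAt
      ((isQFun_qH.pow (k + 1)).mul (isQFun_brRem k)).analyticAt,
      qExpansion_mul (isQFun_qH.pow (k + 1)).analyticAt (isQFun_brRem k).analyticAt,
      Fermat.Agent.S23.QF.qExpansion_pow_of_isQFun isQFun_qH, br_qExpansion_qH,
      br_qExpansion_brPart]
  rw [h1, map_add, PowerSeries.coeff_X_pow_mul', if_neg (by omega), add_zero,
    PowerSeries.coeff_map, br_coeff_etaProd le_rfl, ← br_map_partPS, PowerSeries.coeff_map]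

theorem br_qExpansion_etaProdH :
    qExpansion 1 etaProdH = ModularCurve.dedekindEtaUnit.map (Int.castRingHom ℂ) := by
  have h : etaProdH = brEta1 ^ 24 := by
    ext z; simp [brEta1_pow]
  rw [h, Fermat.Agent.S23.QF.qExpansion_pow_of_isQFun isQFun_brEta1, br_qExpansion_brEta1,
    ModularCurve.dedekindEtaUnit, map_pow]

/-- **The analytic `j` is the prelude's formal `jq`**: `q · j` has `q`-expansion `jNumQ`. -/
theorem br_qExpansion_qH_mul_kleinJ :
    qExpansion 1 (qH * kleinJ) = ModularCurve.jNumQ.map (algebraMap ℚ ℂ) := by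
  have h1 : (qH * kleinJ) * etaProdH = (⇑E₄ : ℍ → ℂ) ^ 3 := by
    rw [qH_mul_kleinJ]
    ext z
    simp only [Pi.mul_apply, Pi.div_apply, Pi.pow_apply]
    field_simp [etaProdH_ne_zero z]
  have h2 := congrArg (qExpansion 1) h1
  rw [qExpansion_mul isQFun_qH_mul_kleinJ.analyticAt isQFun_etaProdH.analyticAt,
    Fermat.Agent.S23.QF.qExpansion_pow_of_isQFun isQFun_E4, br_qExpansion_E4,
    br_qExpansion_etaProdH] at h2
  have h3 : ModularCurve.jNum * ModularCurve.dedekindEtaUnit = ModularCurve.eisenstein4 ^ 3 := by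
    rw [ModularCurve.jNum, mul_assoc, mul_comm ModularCurve.dedekindEtaUnitInv,
      ModularCurve.dedekindEtaUnit_mul_inv, mul_one]
  have h4 := congrArg (PowerSeries.map (Int.castRingHom ℂ)) h3
  rw [map_mul, map_pow] at h4
  have h5 : ModularCurve.jNumQ.map (algebraMap ℚ ℂ) = ModularCurve.jNum.map (Int.castRingHom ℂ) := by
    ext n
    simp [ModularCurve.jNumQ, PowerSeries.coeff_map]
  have hne : ModularCurve.dedekindEtaUnit.map (Int.castRingHom ℂ) ≠ 0 := by
    intro h0
    have := congrArg (PowerSeries.coeff 0) h0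
    rw [PowerSeries.coeff_map, PowerSeries.coeff_zero_eq_constantCoeff,
      ModularCurve.constantCoeff_dedekindEtaUnit] at this
    simp at this
  rw [h5]
  exact mul_right_cancel₀ hne (h2.trans h4.symm)

end Fermat.Agent.S24
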