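/-
M3 (S24 cluster), Bridge (Br1): functions on `ℍ` with a Laurent `q`-expansion at `i∞`
(relation form), closed under ring operations, unique in both directions; `kleinJ` has the
Laurent expansion `jq`, and `g(d z)` has the expansion `qExpand d`.
-/
import Mathlib
import Fermat.Prelude.Def_ModularCurve_X0
import Fermat.Prelude.Def_ModularCurve_LaurentCoeff
import Fermat.Agent.S24.Bridge.JqExpansion
import Fermat.Agent.S24.WeakModFun

set_option autoImplicit false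

open UpperHalfPlane ModularForm EisensteinSeries Filter Topology Function Complex
open scoped MatrixGroups Manifold Real
open Fermat.Agent.S23.QF (IsQFun)
open Fermat.Agent.S23 (alphaN)

namespace Fermat.Agent.S24

local notation "𝕢" => Periodic.qParam

/-- `g` is holomorphic on `ℍ`, `1`-periodic, meromorphic at `i∞`, with Laurent `q`-expansion `f`. -/
def br_HasLaurentQ (g : ℍ → ℂ) (f : LaurentSeries ℂ) : Prop :=
  ∃ m : ℕ, IsQFun (qH ^ m * g) ∧
    HahnSeries.ofPowerSeries ℤ ℂ (qExpansion 1 (qH ^ m * g)) = HahnSeries.single (m : ℤ) (1 : ℂ) * f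

theorem br_single_mul_single (a b : ℤ) :
    (HahnSeries.single a (1 : ℂ) : LaurentSeries ℂ) * HahnSeries.single b 1
      = HahnSeries.single (a + b) 1 := by
  rw [HahnSeries.single_mul_single, mul_one]

theorem br_single_ne_zero (a : ℤ) : (HahnSeries.single a (1 : ℂ) : LaurentSeries ℂ) ≠ 0 :=
  HahnSeries.single_ne_zero one_ne_zero

theorem br_qExpansion_qH_pow_mul {G : ℍ → ℂ} (hG : IsQFun G) (k : ℕ) :
    qExpansion 1 (qH ^ k * G) = PowerSeries.X ^ k * qExpansion 1 G := by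
  rw [qExpansion_mul (isQFun_qH.pow k).analyticAt hG.analyticAt,
    Fermat.Agent.S23.QF.qExpansion_pow_of_isQFun isQFun_qH, br_qExpansion_qH]

/-- the exponent `m` may be increased -/
theorem br_HasLaurentQ.shift {g : ℍ → ℂ} {f : LaurentSeries ℂ} {m : ℕ}
    (h1 : IsQFun (qH ^ m * g))
    (h2 : HahnSeries.ofPowerSeries ℤ ℂ (qExpansion 1 (qH ^ m * g))
      = HahnSeries.single (m : ℤ) (1 : ℂ) * f) (k : ℕ) :
    IsQFun (qH ^ (k + m) * g) ∧
      HahnSeries.ofPowerSeries ℤ ℂ (qExpansion 1 (qH ^ (k + m) * g))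
        = HahnSeries.single ((k + m : ℕ) : ℤ) (1 : ℂ) * f := by
  have e : qH ^ (k + m) * g = qH ^ k * (qH ^ m * g) := by rw [pow_add, mul_assoc]
  refine ⟨by rw [e]; exact (isQFun_qH.pow k).mul h1, ?_⟩
  rw [e, br_qExpansion_qH_pow_mul h1, map_mul, h2, map_pow, HahnSeries.ofPowerSeries_X,
    HahnSeries.single_pow, one_pow, ← mul_assoc, br_single_mul_single]
  congr 2
  push_cast
  simp

theorem br_HasLaurentQ.exists_ge {g : ℍ → ℂ} {f : LaurentSeries ℂ} (h : br_HasLaurentQ g f)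
    (n : ℕ) : ∃ m : ℕ, n ≤ m ∧ IsQFun (qH ^ m * g) ∧
      HahnSeries.ofPowerSeries ℤ ℂ (qExpansion 1 (qH ^ m * g))
        = HahnSeries.single (m : ℤ) (1 : ℂ) * f := by
  obtain ⟨m, h1, h2⟩ := h
  exact ⟨n + m, Nat.le_add_right n m, br_HasLaurentQ.shift h1 h2 n⟩

theorem br_HasLaurentQ.const (c : ℂ) : br_HasLaurentQ (fun _ => c) (HahnSeries.C c) := by
  refine ⟨0, by simpa using IsQFun.const c, ?_⟩
  have e : (qH ^ 0 * fun _ : ℍ => c) = c • (1 : ℍ → ℂ) := by ext z; simp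
  rw [e, qExpansion_smul IsQFun.one.analyticAt, qExpansion_one]
  simp only [Nat.cast_zero]
  rw [show (HahnSeries.single (0 : ℤ) (1 : ℂ) : LaurentSeries ℂ) = 1 from rfl, one_mul]
  rw [show c • (1 : PowerSeries ℂ) = PowerSeries.C c by
    ext n; simp [PowerSeries.coeff_one, PowerSeries.coeff_C]]
  exact HahnSeries.ofPowerSeries_C c

theorem br_HasLaurentQ.mul {g₁ g₂ : ℍ → ℂ} {f₁ f₂ : LaurentSeries ℂ}
    (h₁ : br_HasLaurentQ g₁ f₁) (h₂ : br_HasLaurentQ g₂ f₂) :
    br_HasLaurentQ (g₁ * g₂) (f₁ * f₂) := by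
  obtain ⟨m₁, a1, b1⟩ := h₁
  obtain ⟨m₂, a2, b2⟩ := h₂
  have e : qH ^ (m₁ + m₂) * (g₁ * g₂) = (qH ^ m₁ * g₁) * (qH ^ m₂ * g₂) := by
    rw [pow_add]; ring
  refine ⟨m₁ + m₂, by rw [e]; exact a1.mul a2, ?_⟩
  rw [e, qExpansion_mul a1.analyticAt a2.analyticAt, map_mul, b1, b2]
  push_cast
  rw [← br_single_mul_single]
  ring

theorem br_HasLaurentQ.add {g₁ g₂ : ℍ → ℂ} {f₁ f₂ : LaurentSeries ℂ}
    (h₁ : br_HasLaurentQ g₁ f₁) (h₂ : br_HasLaurentQ g₂ f₂) :
    br_HasLaurentQ (g₁ + g₂) (f₁ + f₂) := by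
  obtain ⟨m₁, a1, b1⟩ := h₁
  obtain ⟨m₂, a2, b2⟩ := h₂
  obtain ⟨a1', b1'⟩ := br_HasLaurentQ.shift a1 b1 m₂
  obtain ⟨a2', b2'⟩ := br_HasLaurentQ.shift a2 b2 m₁
  rw [add_comm m₁ m₂] at a2' b2'
  have e : qH ^ (m₂ + m₁) * (g₁ + g₂) = qH ^ (m₂ + m₁) * g₁ + qH ^ (m₂ + m₁) * g₂ := mul_add _ _ _
  refine ⟨m₂ + m₁, by rw [e]; exact a1'.add a2', ?_⟩
  rw [e, qExpansion_add a1'.analyticAt a2'.analyticAt, map_add, b1', b2', mul_add]

theorem br_HasLaurentQ.neg {g : ℍ → ℂ} {f : LaurentSeries ℂ} (h : br_HasLaurentQ g f) :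
    br_HasLaurentQ (-g) (-f) := by
  obtain ⟨m, a, b⟩ := h
  have e : qH ^ m * (-g) = -(qH ^ m * g) := mul_neg _ _
  refine ⟨m, by rw [e]; exact a.neg, ?_⟩
  rw [e, qExpansion_neg a.analyticAt, map_neg, b, ← mul_neg]

theorem br_HasLaurentQ.sub {g₁ g₂ : ℍ → ℂ} {f₁ f₂ : LaurentSeries ℂ}
    (h₁ : br_HasLaurentQ g₁ f₁) (h₂ : br_HasLaurentQ g₂ f₂) :
    br_HasLaurentQ (g₁ - g₂) (f₁ - f₂) := by
  rw [sub_eq_add_neg, sub_eq_add_neg]
  exact h₁.add h₂.neg

theorem br_HasLaurentQ.mdiff {g : ℍ → ℂ} {f : LaurentSeries ℂ} (h : br_HasLaurentQ g f) :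
    MDiff g := by
  obtain ⟨m, a, -⟩ := h
  have e : g = (qH ^ m * g) / qH ^ m := by
    ext z
    simp only [Pi.div_apply, Pi.mul_apply, Pi.pow_apply]
    field_simp [qH_ne_zero z]
  rw [e]
  exact MDifferentiable.div a.mdiff (qH_mdiff.pow m) fun z => pow_ne_zero _ (qH_ne_zero z)

/-- the function vanishes iff its Laurent expansion does -/
theorem br_HasLaurentQ.eq_zero_iff {g : ℍ → ℂ} {f : LaurentSeries ℂ} (h : br_HasLaurentQ g f) :
    g = 0 ↔ f = 0 := by
  obtain ⟨m, a, b⟩ := h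
  constructor
  · intro hg
    subst hg
    rw [mul_zero, qExpansion_zero, map_zero] at b
    exact (mul_eq_zero.mp b.symm).resolve_left (br_single_ne_zero _)
  · intro hf
    subst hf
    rw [mul_zero] at b
    have h0 : qExpansion 1 (qH ^ m * g) = 0 :=
      HahnSeries.ofPowerSeries_injective (by rw [b, map_zero])
    have h1 := a.qExpansion_eq_zero_iff.mp h0
    ext z
    have h2 := congrFun h1 z
    simp only [Pi.mul_apply, Pi.pow_apply, Pi.zero_apply, mul_eq_zero] at h2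
    exact h2.resolve_left (pow_ne_zero _ (qH_ne_zero z))

theorem br_HasLaurentQ.unique_left {g₁ g₂ : ℍ → ℂ} {f : LaurentSeries ℂ}
    (h₁ : br_HasLaurentQ g₁ f) (h₂ : br_HasLaurentQ g₂ f) : g₁ = g₂ := by
  have := (h₁.sub h₂).eq_zero_iff.mpr (sub_self f)
  exact sub_eq_zero.mp this

theorem br_HasLaurentQ.unique_right {g : ℍ → ℂ} {f₁ f₂ : LaurentSeries ℂ}
    (h₁ : br_HasLaurentQ g f₁) (h₂ : br_HasLaurentQ g f₂) : f₁ = f₂ := by
  have := (h₁.sub h₂).eq_zero_iff.mp (sub_self g)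
  exact sub_eq_zero.mp this

/-! ### scaling `z ↦ d z` -/

theorem br_qH_alphaN_smul (d : ℕ) [NeZero d] (z : ℍ) : qH (alphaN d • z) = qH z ^ d :=
  Fermat.Agent.S23.qParam_alphaN_smul d z

theorem br_im_alphaN_smul (d : ℕ) [NeZero d] (z : ℍ) : (alphaN d • z).im = d * z.im := by
  have h := Fermat.Agent.S23.coe_alphaN_smul d z
  have h2 := congrArg Complex.im h
  simpa using h2

theorem br_isQFun_comp_alphaN (d : ℕ) [NeZero d] {G : ℍ → ℂ} (hG : IsQFun G) :
    IsQFun (fun z => G (alphaN d • z)) := by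
  refine ⟨hG.mdiff.comp (UpperHalfPlane.mdifferentiable_smul (Fermat.Agent.S23.det_alphaN_pos d)),
    ?_, ?_⟩
  · intro w
    by_cases hw : 0 < w.im
    · have hw1 : 0 < (w + 1).im := by simpa using hw
      simp only [comp_apply, ofComplex_apply_of_im_pos hw, ofComplex_apply_of_im_pos hw1]
      have hp := hG.periodic.nat_mul d ((d : ℂ) * w)
      have hdw : 0 < ((d : ℂ) * w).im := by
        simp only [Complex.mul_im, Complex.natCast_re, Complex.natCast_im, zero_mul, add_zero]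
        exact mul_pos (by exact_mod_cast Nat.pos_of_ne_zero (NeZero.ne d)) hw
      have hdw1 : 0 < ((d : ℂ) * w + (d : ℂ) * 1).im := by
        simpa [mul_add] using hdw
      simp only [comp_apply, ofComplex_apply_of_im_pos hdw, ofComplex_apply_of_im_pos hdw1] at hp
      have e1 : (alphaN d • (⟨w + 1, hw1⟩ : ℍ) : ℍ) = ⟨(d : ℂ) * w + (d : ℂ) * 1, hdw1⟩ := by
        apply UpperHalfPlane.ext
        rw [Fermat.Agent.S23.coe_alphaN_smul]
        simp [mul_add]
      have e2 : (alphaN d • (⟨w, hw⟩ : ℍ) : ℍ) = ⟨(d : ℂ) * w, hdw⟩ := by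
        apply UpperHalfPlane.ext
        rw [Fermat.Agent.S23.coe_alphaN_smul]
      rw [e1, e2]
      exact hp
    · have hw0 : w.im ≤ 0 := not_lt.mp hw
      have hw1 : (w + 1).im ≤ 0 := by simpa using hw0
      simp [comp_apply, ofComplex_apply_of_im_nonpos hw0, ofComplex_apply_of_im_nonpos hw1]
  · obtain ⟨M, A, h⟩ := isBoundedAtImInfty_iff.mp hG.bdd
    refine isBoundedAtImInfty_iff.mpr ⟨M, max A 0, fun z hz => h _ ?_⟩
    rw [br_im_alphaN_smul]
    have hd : (1 : ℝ) ≤ d := by exact_mod_cast Nat.one_le_iff_ne_zero.mpr (NeZero.ne d)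
    have hz0 : 0 ≤ z.im := z.im_pos.le
    nlinarith [le_max_left A 0, le_max_right A 0]

theorem br_qExpansion_comp_alphaN_coeff (d : ℕ) [NeZero d] {G : ℍ → ℂ} (hG : IsQFun G) (n : ℕ) :
    (qExpansion 1 (fun z => G (alphaN d • z))).coeff n =
      if d ∣ n then (qExpansion 1 G).coeff (n / d) else 0 := by
  refine (br_qExpansion_coeff_unique (br_isQFun_comp_alphaN d hG)
    (c := fun n => if d ∣ n then (qExpansion 1 G).coeff (n / d) else 0) ?_ n).symm
  intro τ
  have h1 := hasSum_qExpansion one_pos hG.periodic' hG.mdiff hG.bdd (alphaN d • τ)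
  have hdpos : 0 < d := Nat.pos_of_ne_zero (NeZero.ne d)
  have hinj : Function.Injective (fun m : ℕ => d * m) := fun a b hab =>
    Nat.eq_of_mul_eq_mul_left hdpos hab
  rw [← hinj.hasSum_iff]
  · have h3 : ((fun m : ℕ => (if d ∣ m then (qExpansion 1 G).coeff (m / d) else 0) •
        𝕢 1 (τ : ℂ) ^ m) ∘ fun m : ℕ => d * m)
        = fun m => (qExpansion 1 G).coeff m • 𝕢 1 ((alphaN d • τ : ℍ) : ℂ) ^ m := by
      funext m
      simp only [Function.comp, Nat.mul_div_cancel_left _ hdpos, dvd_mul_right, if_true]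
      rw [Fermat.Agent.S23.qParam_alphaN_smul, pow_mul]
    rw [h3]
    exact h1
  · intro x hx
    have : ¬ d ∣ x := fun ⟨m, hm⟩ => hx ⟨m, hm.symm⟩
    simp [this]


theorem br_ofPowerSeries_coeff_natCast {R : Type*} [CommRing R] (p : PowerSeries R) (k : ℤ) :
    (HahnSeries.ofPowerSeries ℤ R p).coeff k = if 0 ≤ k then p.coeff k.toNat else 0 := by
  split_ifs with h
  · obtain ⟨n, rfl⟩ := Int.eq_ofNat_of_zero_le h
    rw [HahnSeries.ofPowerSeries_apply_coeff, Int.toNat_natCast]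
  · exact ModularCurve.ofPowerSeries_coeff_of_neg p (not_le.mp h)

theorem br_ofPowerSeries_comp_alphaN (d : ℕ) [NeZero d] {G : ℍ → ℂ} (hG : IsQFun G) :
    HahnSeries.ofPowerSeries ℤ ℂ (qExpansion 1 (fun z => G (alphaN d • z)))
      = ModularCurve.qExpand ℂ d (HahnSeries.ofPowerSeries ℤ ℂ (qExpansion 1 G)) := by
  have hdpos : 0 < d := Nat.pos_of_ne_zero (NeZero.ne d)
  ext k
  by_cases hk : (d : ℤ) ∣ k
  · obtain ⟨l, rfl⟩ := hk
    rw [ModularCurve.qExpand_coeff_mul, br_ofPowerSeries_coeff_natCast,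
      br_ofPowerSeries_coeff_natCast]
    have hd0 : (0 : ℤ) < d := by exact_mod_cast hdpos
    by_cases hl : 0 ≤ l
    · obtain ⟨n, rfl⟩ := Int.eq_ofNat_of_zero_le hl
      have h1 : (0 : ℤ) ≤ (d : ℤ) * (n : ℤ) := by positivity
      rw [if_pos h1, if_pos hl, br_qExpansion_comp_alphaN_coeff d hG]
      have e : ((d : ℤ) * (n : ℤ)).toNat = d * n := by
        rw [← Nat.cast_mul, Int.toNat_natCast]
      rw [e, if_pos (dvd_mul_right d n), Nat.mul_div_cancel_left _ hdpos, Int.toNat_natCast]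
    · have h1 : ¬ (0 : ℤ) ≤ (d : ℤ) * l := by
        intro h
        exact hl (nonneg_of_mul_nonneg_right h hd0)
      rw [if_neg h1, if_neg hl]
  · rw [ModularCurve.qExpand_coeff_of_not_dvd d _ hk, br_ofPowerSeries_coeff_natCast]
    split_ifs with h
    · obtain ⟨n, rfl⟩ := Int.eq_ofNat_of_zero_le h
      rw [Int.toNat_natCast, br_qExpansion_comp_alphaN_coeff d hG, if_neg]
      intro hdn
      exact hk (Int.natCast_dvd_natCast.mpr hdn)
    · rfl

/-- `g(d z)` has the Laurent expansion `qExpand d f` -/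
theorem br_HasLaurentQ.comp_alphaN (d : ℕ) [NeZero d] {g : ℍ → ℂ} {f : LaurentSeries ℂ}
    (h : br_HasLaurentQ g f) :
    br_HasLaurentQ (fun z => g (alphaN d • z)) (ModularCurve.qExpand ℂ d f) := by
  obtain ⟨m, a, b⟩ := h
  have e : qH ^ (d * m) * (fun z => g (alphaN d • z))
      = fun z => (qH ^ m * g) (alphaN d • z) := by
    ext z
    simp only [Pi.mul_apply, Pi.pow_apply, br_qH_alphaN_smul, pow_mul]
  refine ⟨d * m, by rw [e]; exact br_isQFun_comp_alphaN d a, ?_⟩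
  rw [e, br_ofPowerSeries_comp_alphaN d a, b, map_mul, ModularCurve.qExpand_single]
  push_cast
  rfl

/-- the prelude's `jq` with complex coefficients -/
noncomputable def br_jqC : LaurentSeries ℂ := ModularCurve.coeffMap (algebraMap ℚ ℂ) ModularCurve.jq

theorem br_coeffMap_ofPowerSeries {R S : Type*} [CommRing R] [CommRing S] (φ : R →+* S)
    (p : PowerSeries R) :
    ModularCurve.coeffMap φ (HahnSeries.ofPowerSeries ℤ R p)
      = HahnSeries.ofPowerSeries ℤ S (p.map φ) := by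
  ext k
  rw [ModularCurve.coeffMap_coeff, br_ofPowerSeries_coeff_natCast, br_ofPowerSeries_coeff_natCast]
  split_ifs
  · rw [PowerSeries.coeff_map]
  · exact map_zero φ

theorem br_jqC_eq : br_jqC = HahnSeries.single (-1 : ℤ) (1 : ℂ) *
    HahnSeries.ofPowerSeries ℤ ℂ (ModularCurve.jNumQ.map (algebraMap ℚ ℂ)) := by
  rw [br_jqC, ModularCurve.jq, map_mul, ModularCurve.coeffMap_single, br_coeffMap_ofPowerSeries,
    map_one]

theorem br_HasLaurentQ_kleinJ : br_HasLaurentQ kleinJ br_jqC := by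
  refine ⟨1, by simpa using isQFun_qH_mul_kleinJ, ?_⟩
  rw [pow_one, br_qExpansion_qH_mul_kleinJ, br_jqC_eq, ← mul_assoc, br_single_mul_single]
  simp only [Nat.cast_one, add_neg_cancel]
  rw [show (HahnSeries.single (0 : ℤ) (1 : ℂ) : LaurentSeries ℂ) = 1 from rfl, one_mul]

theorem br_HasLaurentQ_jd (d : ℕ) [NeZero d] :
    br_HasLaurentQ (jd d) (ModularCurve.qExpand ℂ d br_jqC) :=
  br_HasLaurentQ_kleinJ.comp_alphaN d

end Fermat.Agent.S24
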