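/-
M3 (S24 cluster), Bridge (Br2): the prelude field `modularFunctionFieldBar N ⊆ Q̄((q))` is the
fraction field of the `Q̄`-algebra `A0 N` generated by the series `j(q^d)`, `d ∣ N`, and `A0 N`
embeds into the holomorphic functions on `ℍ` (`br_an`), sending `j(q^d)` to `z ↦ j(d z)`.
-/
import Mathlib
import Fermat.Prelude.Def_ModularCurve_X0
import Fermat.Prelude.Def_ModularCurve_LaurentCoeff
import Fermat.Prelude.Def_ModularCurve_ArithmeticGalois
import Fermat.Prelude.Thm_ModularCurve_coeffMap_qExpand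
import Fermat.Agent.S24.Bridge.LaurentQ

set_option autoImplicit false

open UpperHalfPlane ModularForm EisensteinSeries Filter Topology Function Complex
open scoped MatrixGroups Manifold Real
open Fermat.Agent.S23.QF (IsQFun)
open Fermat.Agent.S23 (alphaN)

namespace Fermat.Agent.S24

/-- a fixed embedding `Q̄ → ℂ` -/
noncomputable def br_iota : AlgebraicClosure ℚ →ₐ[ℚ] ℂ :=
  haveI : Algebra.IsAlgebraic ℚ (AlgebraicClosure ℚ) := AlgebraicClosure.isAlgebraic ℚ
  IsAlgClosed.lift

theorem br_iota_injective : Function.Injective (br_iota : AlgebraicClosure ℚ →+* ℂ) :=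
  (br_iota : AlgebraicClosure ℚ →+* ℂ).injective

/-- the generator `j(q^d)` of the prelude field, as a Laurent series over `Q̄` -/
noncomputable def barGen (d : ℕ) [NeZero d] : LaurentSeries (AlgebraicClosure ℚ) :=
  ModularCurve.coeffEmb (AlgebraicClosure ℚ) (ModularCurve.qExpand ℚ d ModularCurve.jq)

/-- the set of generators -/
def barGens (N : ℕ) : Set (LaurentSeries (AlgebraicClosure ℚ)) :=
  {x | ∃ (d : ℕ) (_ : NeZero d), d ∣ N ∧ x = barGen d}

theorem barGen_mem_barGens {N d : ℕ} [NeZero d] (hd : d ∣ N) : barGen d ∈ barGens N :=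
  ⟨d, inferInstance, hd, rfl⟩

theorem br_coeffMap_iota_coeffEmb (x : LaurentSeries ℚ) :
    ModularCurve.coeffMap (br_iota : AlgebraicClosure ℚ →+* ℂ)
      (ModularCurve.coeffEmb (AlgebraicClosure ℚ) x)
      = ModularCurve.coeffMap (algebraMap ℚ ℂ) x := by
  rw [ModularCurve.coeffEmb, ModularCurve.coeffMap_coeffMap]
  exact ModularCurve.coeffMap_congr (RingHom.ext fun c => br_iota.commutes c) x

theorem br_coeffMap_barGen (d : ℕ) [NeZero d] :
    ModularCurve.coeffMap (br_iota : AlgebraicClosure ℚ →+* ℂ) (barGen d)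
      = ModularCurve.qExpand ℂ d br_jqC := by
  rw [barGen, br_coeffMap_iota_coeffEmb, ModularCurve.coeffMap_qExpand, br_jqC]

theorem br_coeffMap_injective {R S : Type*} [CommRing R] [CommRing S] (φ : R →+* S)
    (hφ : Function.Injective φ) : Function.Injective (ModularCurve.coeffMap φ) := by
  intro x y h
  ext k
  have := congrArg (fun z => z.coeff k) h
  simp only [ModularCurve.coeffMap_coeff] at this
  exact hφ this

theorem br_coeffMap_algebraMap (c : AlgebraicClosure ℚ) :
    ModularCurve.coeffMap (br_iota : AlgebraicClosure ℚ →+* ℂ)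
      (algebraMap (AlgebraicClosure ℚ) (LaurentSeries (AlgebraicClosure ℚ)) c)
      = HahnSeries.C (br_iota c) := by
  rw [ModularCurve.algebraMap_laurentSeries_eq_single, ModularCurve.coeffMap_single]
  rfl

/-! ### the prelude field is generated by the `barGen d` -/

theorem br_modularFunctionFieldBar_eq (N : ℕ) [NeZero N] :
    ModularCurve.modularFunctionFieldBar N
      = IntermediateField.adjoin (AlgebraicClosure ℚ) (barGens N) := by
  apply le_antisymm
  · rw [ModularCurve.modularFunctionFieldBar, ModularCurve.laurentBaseChange,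
      IntermediateField.adjoin_le_iff]
    rintro _ ⟨x, hx, rfl⟩
    rw [SetLike.mem_coe, ModularCurve.modularFunctionFieldFull] at hx
    show ModularCurve.coeffEmb (AlgebraicClosure ℚ) x ∈ _
    induction hx using IntermediateField.adjoin_induction with
    | mem y hy =>
      obtain ⟨d, hd, hdN, rfl⟩ := hy
      exact IntermediateField.subset_adjoin _ _ ⟨d, hd, hdN, rfl⟩
    | algebraMap r =>
      have : ModularCurve.coeffEmb (AlgebraicClosure ℚ) (algebraMap ℚ (LaurentSeries ℚ) r)
          = algebraMap (AlgebraicClosure ℚ) (LaurentSeries (AlgebraicClosure ℚ))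
            (algebraMap ℚ (AlgebraicClosure ℚ) r) := by
        rw [ModularCurve.algebraMap_laurentSeries_eq_single,
          ModularCurve.algebraMap_laurentSeries_eq_single, ModularCurve.coeffEmb,
          ModularCurve.coeffMap_single]
      rw [this]
      exact IntermediateField.algebraMap_mem _ _
    | add x y _ _ hx hy => rw [map_add]; exact add_mem hx hy
    | inv x _ hx => rw [map_inv₀]; exact inv_mem hx
    | mul x y _ _ hx hy => rw [map_mul]; exact mul_mem hx hy
  · rw [IntermediateField.adjoin_le_iff]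
    rintro _ ⟨d, hd, hdN, rfl⟩
    exact ModularCurve.coeffEmb_mem_laurentBaseChange _
      (ModularCurve.jqd_mem_full N hdN)

/-- the `Q̄`-algebra generated by the `j(q^d)`, `d ∣ N` -/
noncomputable def A0 (N : ℕ) : Subalgebra (AlgebraicClosure ℚ) (LaurentSeries (AlgebraicClosure ℚ)) :=
  Algebra.adjoin (AlgebraicClosure ℚ) (barGens N)

theorem A0_le (N : ℕ) [NeZero N] :
    A0 N ≤ (ModularCurve.modularFunctionFieldBar N).toSubalgebra := by
  rw [br_modularFunctionFieldBar_eq]
  exact IntermediateField.algebra_adjoin_le_adjoin _ _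

/-- every element of the prelude field is a quotient of two elements of `A0 N` -/
theorem br_exists_div (N : ℕ) [NeZero N] {x : LaurentSeries (AlgebraicClosure ℚ)}
    (hx : x ∈ ModularCurve.modularFunctionFieldBar N) :
    ∃ r ∈ A0 N, ∃ s ∈ A0 N, s ≠ 0 ∧ x = r / s := by
  rw [br_modularFunctionFieldBar_eq, IntermediateField.mem_adjoin_iff_div] at hx
  obtain ⟨r, hr, s, hs, rfl⟩ := hx
  by_cases h0 : s = 0
  · subst h0
    exact ⟨0, zero_mem _, 1, one_mem _, one_ne_zero, by simp⟩
  · exact ⟨r, hr, s, hs, h0, rfl⟩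

/-! ### the analytic realisation of `A0 N` -/

theorem br_exists_an (N : ℕ) [NeZero N] {x : LaurentSeries (AlgebraicClosure ℚ)} (hx : x ∈ A0 N) :
    ∃ g : ℍ → ℂ, br_HasLaurentQ g (ModularCurve.coeffMap (br_iota : AlgebraicClosure ℚ →+* ℂ) x)
      ∧ g ∈ jdAlgebra N := by
  induction hx using Algebra.adjoin_induction with
  | mem y hy =>
    obtain ⟨d, hd, hdN, rfl⟩ := hy
    exact ⟨jd d, by rw [br_coeffMap_barGen]; exact br_HasLaurentQ_jd d, jd_mem_jdAlgebra hdN⟩
  | algebraMap r =>
    refine ⟨fun _ => br_iota r, by rw [br_coeffMap_algebraMap]; exact br_HasLaurentQ.const _, ?_⟩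
    exact (jdAlgebra N).algebraMap_mem (br_iota r)
  | add x y _ _ hx hy =>
    obtain ⟨g₁, h₁, m₁⟩ := hx
    obtain ⟨g₂, h₂, m₂⟩ := hy
    exact ⟨g₁ + g₂, by rw [map_add]; exact h₁.add h₂, add_mem m₁ m₂⟩
  | mul x y _ _ hx hy =>
    obtain ⟨g₁, h₁, m₁⟩ := hx
    obtain ⟨g₂, h₂, m₂⟩ := hy
    exact ⟨g₁ * g₂, by rw [map_mul]; exact h₁.mul h₂, mul_mem m₁ m₂⟩

/-- the analytic function attached to an element of `A0 N` -/
noncomputable def br_anFun (N : ℕ) [NeZero N] (x : A0 N) : ℍ → ℂ := (br_exists_an N x.2).choose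

theorem br_anFun_spec (N : ℕ) [NeZero N] (x : A0 N) :
    br_HasLaurentQ (br_anFun N x)
      (ModularCurve.coeffMap (br_iota : AlgebraicClosure ℚ →+* ℂ) (x : LaurentSeries _)) :=
  (br_exists_an N x.2).choose_spec.1

theorem br_anFun_mem (N : ℕ) [NeZero N] (x : A0 N) : br_anFun N x ∈ jdAlgebra N :=
  (br_exists_an N x.2).choose_spec.2

theorem br_anFun_eq (N : ℕ) [NeZero N] (x : A0 N) {g : ℍ → ℂ}
    (hg : br_HasLaurentQ g
      (ModularCurve.coeffMap (br_iota : AlgebraicClosure ℚ →+* ℂ) (x : LaurentSeries _))) :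
    br_anFun N x = g :=
  (br_anFun_spec N x).unique_left hg

/-- **the analytic realisation** `A0 N → jdAlgebra N ⊆ (ℍ → ℂ)`, a ring homomorphism -/
noncomputable def br_an (N : ℕ) [NeZero N] : A0 N →+* jdAlgebra N where
  toFun x := ⟨br_anFun N x, br_anFun_mem N x⟩
  map_one' := Subtype.ext <| br_anFun_eq N 1 <| by
    have h := br_HasLaurentQ.const 1
    have e : ModularCurve.coeffMap (br_iota : AlgebraicClosure ℚ →+* ℂ)
        ((1 : A0 N) : LaurentSeries _) = HahnSeries.C (1 : ℂ) := by
      rw [OneMemClass.coe_one, map_one, map_one]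
    rw [e]; exact h
  map_mul' x y := Subtype.ext <| br_anFun_eq N (x * y) <| by
    show br_HasLaurentQ (br_anFun N x * br_anFun N y)
      (ModularCurve.coeffMap (br_iota : AlgebraicClosure ℚ →+* ℂ)
        ((x : LaurentSeries (AlgebraicClosure ℚ)) * (y : LaurentSeries (AlgebraicClosure ℚ))))
    rw [map_mul]
    exact (br_anFun_spec N x).mul (br_anFun_spec N y)
  map_zero' := Subtype.ext <| br_anFun_eq N 0 <| by
    have h := br_HasLaurentQ.const 0
    have e : ModularCurve.coeffMap (br_iota : AlgebraicClosure ℚ →+* ℂ)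
        ((0 : A0 N) : LaurentSeries _) = HahnSeries.C (0 : ℂ) := by
      rw [ZeroMemClass.coe_zero, map_zero, map_zero]
    rw [e]; exact h
  map_add' x y := Subtype.ext <| br_anFun_eq N (x + y) <| by
    show br_HasLaurentQ (br_anFun N x + br_anFun N y)
      (ModularCurve.coeffMap (br_iota : AlgebraicClosure ℚ →+* ℂ)
        ((x : LaurentSeries (AlgebraicClosure ℚ)) + (y : LaurentSeries (AlgebraicClosure ℚ))))
    rw [map_add]
    exact (br_anFun_spec N x).add (br_anFun_spec N y)

theorem br_an_coe (N : ℕ) [NeZero N] (x : A0 N) : ((br_an N x : jdAlgebra N) : ℍ → ℂ) = br_anFun N x :=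
  rfl

theorem br_an_spec (N : ℕ) [NeZero N] (x : A0 N) :
    br_HasLaurentQ ((br_an N x : jdAlgebra N) : ℍ → ℂ)
      (ModularCurve.coeffMap (br_iota : AlgebraicClosure ℚ →+* ℂ) (x : LaurentSeries _)) :=
  br_anFun_spec N x

theorem br_an_injective (N : ℕ) [NeZero N] : Function.Injective (br_an N) := by
  rw [injective_iff_map_eq_zero]
  intro x hx
  have h0 : ((br_an N x : jdAlgebra N) : ℍ → ℂ) = 0 := by rw [hx]; rfl
  have h1 := (br_an_spec N x).eq_zero_iff.mp h0
  have h2 : (x : LaurentSeries (AlgebraicClosure ℚ)) = 0 := by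
    refine br_coeffMap_injective (br_iota : AlgebraicClosure ℚ →+* ℂ) br_iota_injective ?_
    rw [h1, map_zero]
  exact Subtype.ext h2

theorem br_an_barGen (N : ℕ) [NeZero N] {d : ℕ} [NeZero d] (hd : d ∣ N) :
    ((br_an N ⟨barGen d, Algebra.subset_adjoin (barGen_mem_barGens hd)⟩ : jdAlgebra N) : ℍ → ℂ)
      = jd d :=
  br_anFun_eq N _ (by rw [br_coeffMap_barGen]; exact br_HasLaurentQ_jd d)

theorem br_an_algebraMap (N : ℕ) [NeZero N] (c : AlgebraicClosure ℚ) :
    ((br_an N (algebraMap (AlgebraicClosure ℚ) (A0 N) c) : jdAlgebra N) : ℍ → ℂ)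
      = fun _ => br_iota c :=
  br_anFun_eq N _ (by
    rw [show ((algebraMap (AlgebraicClosure ℚ) (A0 N) c : A0 N) : LaurentSeries _)
      = algebraMap (AlgebraicClosure ℚ) (LaurentSeries (AlgebraicClosure ℚ)) c from rfl,
      br_coeffMap_algebraMap]
    exact br_HasLaurentQ.const _)

theorem br_an_isWeakModFun (N : ℕ) [NeZero N] (x : A0 N) :
    IsWeakModFun N ((br_an N x : jdAlgebra N) : ℍ → ℂ) :=
  jdAlgebra_le N (br_an N x).2

end Fermat.Agent.S24
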