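/-
M3 (S24 cluster), Bridge (Br2, part 2): `modularFunctionFieldBar N` is the fraction field of
`A0 N`; any injective "germ" ring hom on the function algebra `jdAlgebra N = ℂ[j(dz) : d ∣ N]`
extends to a `Q̄`-algebra embedding `modularFunctionFieldBar N →ₐ[Q̄] ℂ((s))`.
-/
import Mathlib
import Fermat.Agent.S24.Bridge.Field

set_option autoImplicit false

open UpperHalfPlane ModularForm Filter Topology Function Complex
open Fermat.Agent.S23.QF (IsQFun)

namespace Fermat.Agent.S24

namespace Br
/-- `ℂ` as a `Q̄`-algebra via `br_iota` -/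
noncomputable scoped instance br_algebraQbarC : Algebra (AlgebraicClosure ℚ) ℂ :=
  (br_iota : AlgebraicClosure ℚ →+* ℂ).toAlgebra
end Br

open Br

theorem br_algebraMap_QbarC (c : AlgebraicClosure ℚ) : algebraMap (AlgebraicClosure ℚ) ℂ c = br_iota c :=
  rfl


theorem br_algebraMap_Qbar_laurent (c : AlgebraicClosure ℚ) :
    algebraMap (AlgebraicClosure ℚ) (LaurentSeries ℂ) c = HahnSeries.C (br_iota c) := by
  rw [HahnSeries.algebraMap_apply']
  have : algebraMap (AlgebraicClosure ℚ) (PowerSeries ℂ) c = PowerSeries.C (br_iota c) := by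
    rw [PowerSeries.algebraMap_apply]
    rfl
  rw [this, HahnSeries.ofPowerSeries_C]

variable (N : ℕ) [NeZero N]

noncomputable instance br_algebraA0F : Algebra (A0 N) (ModularCurve.modularFunctionFieldBar N) :=
  (Subalgebra.inclusion (A0_le N)).toAlgebra

theorem br_algebraMap_A0F (x : A0 N) :
    ((algebraMap (A0 N) (ModularCurve.modularFunctionFieldBar N) x :
      ModularCurve.modularFunctionFieldBar N) : LaurentSeries (AlgebraicClosure ℚ)) = x := rfl

instance br_scalarTowerA0F : IsScalarTower (AlgebraicClosure ℚ) (A0 N) (ModularCurve.modularFunctionFieldBar N) :=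
  IsScalarTower.of_algebraMap_eq fun _ => rfl

instance br_faithfulA0F : FaithfulSMul (A0 N) (ModularCurve.modularFunctionFieldBar N) := by
  rw [faithfulSMul_iff_algebraMap_injective]
  intro x y h
  have := congrArg (fun z : ModularCurve.modularFunctionFieldBar N => (z : LaurentSeries (AlgebraicClosure ℚ))) h
  exact Subtype.ext this

instance br_isFractionRingA0F : IsFractionRing (A0 N) (ModularCurve.modularFunctionFieldBar N) :=
  IsFractionRing.of_field _ _ fun ⟨x, hx⟩ => by
    obtain ⟨r, hr, s, hs, hs0, rfl⟩ := br_exists_div N hx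
    exact ⟨⟨r, hr⟩, ⟨s, hs⟩, Subtype.ext rfl⟩


variable {N}

/-- the `Q̄`-algebra hom `A0 N → ℂ((s))` attached to a "germ" ring hom `T` on functions -/
noncomputable def br_germAlgHom (T : jdAlgebra N →+* LaurentSeries ℂ)
    (hTc : ∀ a : ℂ, T (algebraMap ℂ (jdAlgebra N) a) = HahnSeries.C a) :
    A0 N →ₐ[AlgebraicClosure ℚ] LaurentSeries ℂ where
  toRingHom := T.comp (br_an N)
  commutes' c := by
    show T (br_an N (algebraMap (AlgebraicClosure ℚ) (A0 N) c)) = _
    have e : br_an N (algebraMap (AlgebraicClosure ℚ) (A0 N) c)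
        = algebraMap ℂ (jdAlgebra N) (br_iota c) :=
      Subtype.ext (br_an_algebraMap N c)
    rw [e, hTc, br_algebraMap_Qbar_laurent]

theorem br_germAlgHom_apply (T : jdAlgebra N →+* LaurentSeries ℂ)
    (hTc : ∀ a : ℂ, T (algebraMap ℂ (jdAlgebra N) a) = HahnSeries.C a) (x : A0 N) :
    br_germAlgHom T hTc x = T (br_an N x) := rfl

theorem br_germAlgHom_injective (T : jdAlgebra N →+* LaurentSeries ℂ) (hT : Function.Injective T)
    (hTc : ∀ a : ℂ, T (algebraMap ℂ (jdAlgebra N) a) = HahnSeries.C a) :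
    Function.Injective (br_germAlgHom T hTc) :=
  hT.comp (br_an_injective N)

/-- **extension of a germ map to the prelude field**: an injective ring hom `T` from the algebra
of functions `ℂ[j(dz) : d ∣ N]` to `ℂ((s))` (constants to constants) induces a `Q̄`-algebra
embedding of `modularFunctionFieldBar N`. -/
noncomputable def br_liftEmb (T : jdAlgebra N →+* LaurentSeries ℂ) (hT : Function.Injective T)
    (hTc : ∀ a : ℂ, T (algebraMap ℂ (jdAlgebra N) a) = HahnSeries.C a) :
    ModularCurve.modularFunctionFieldBar N →ₐ[AlgebraicClosure ℚ] LaurentSeries ℂ :=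
  IsFractionRing.liftAlgHom (g := br_germAlgHom T hTc) (br_germAlgHom_injective T hT hTc)

theorem br_liftEmb_algebraMap (T : jdAlgebra N →+* LaurentSeries ℂ) (hT : Function.Injective T)
    (hTc : ∀ a : ℂ, T (algebraMap ℂ (jdAlgebra N) a) = HahnSeries.C a) (x : A0 N) :
    br_liftEmb T hT hTc (algebraMap (A0 N) (ModularCurve.modularFunctionFieldBar N) x)
      = T (br_an N x) := by
  rw [br_liftEmb, IsFractionRing.liftAlgHom_apply, IsFractionRing.lift_algebraMap]
  rfl

theorem br_liftEmb_div (T : jdAlgebra N →+* LaurentSeries ℂ) (hT : Function.Injective T)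
    (hTc : ∀ a : ℂ, T (algebraMap ℂ (jdAlgebra N) a) = HahnSeries.C a) (r s : A0 N) :
    br_liftEmb T hT hTc (algebraMap (A0 N) (ModularCurve.modularFunctionFieldBar N) r /
        algebraMap (A0 N) (ModularCurve.modularFunctionFieldBar N) s)
      = T (br_an N r) / T (br_an N s) := by
  rw [map_div₀, br_liftEmb_algebraMap, br_liftEmb_algebraMap]

/-- the generator `j(q^d)` as an element of the prelude field -/
noncomputable def barGenF (N : ℕ) [NeZero N] (d : ℕ) [NeZero d] (hd : d ∣ N) :
    ModularCurve.modularFunctionFieldBar N :=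
  algebraMap (A0 N) (ModularCurve.modularFunctionFieldBar N)
    ⟨barGen d, Algebra.subset_adjoin (barGen_mem_barGens hd)⟩

theorem coe_barGenF (d : ℕ) [NeZero d] (hd : d ∣ N) :
    ((barGenF N d hd : ModularCurve.modularFunctionFieldBar N) :
      LaurentSeries (AlgebraicClosure ℚ)) = barGen d := rfl

theorem br_liftEmb_barGenF (T : jdAlgebra N →+* LaurentSeries ℂ) (hT : Function.Injective T)
    (hTc : ∀ a : ℂ, T (algebraMap ℂ (jdAlgebra N) a) = HahnSeries.C a)
    (d : ℕ) [NeZero d] (hd : d ∣ N) :
    br_liftEmb T hT hTc (barGenF N d hd) = T ⟨jd d, jd_mem_jdAlgebra hd⟩ := by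
  rw [barGenF, br_liftEmb_algebraMap]
  congr 1
  exact Subtype.ext (br_an_barGen N hd)

/-- two embeddings obtained from germ maps agree iff the germ maps agree on `jdAlgebra`'s image -/
theorem br_liftEmb_injective_of (T T' : jdAlgebra N →+* LaurentSeries ℂ)
    (hT : Function.Injective T) (hT' : Function.Injective T')
    (hTc : ∀ a : ℂ, T (algebraMap ℂ (jdAlgebra N) a) = HahnSeries.C a)
    (hTc' : ∀ a : ℂ, T' (algebraMap ℂ (jdAlgebra N) a) = HahnSeries.C a)
    (h : br_liftEmb T hT hTc = br_liftEmb T' hT' hTc') (x : A0 N) :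
    T (br_an N x) = T' (br_an N x) := by
  rw [← br_liftEmb_algebraMap T hT hTc, ← br_liftEmb_algebraMap T' hT' hTc', h]

end Fermat.Agent.S24
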