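/-
M3 (S24 cluster), Bridge block (Br3): the degree of the prelude function field
`Fbar N = modularFunctionFieldBar N` over `Q̄(j)` equals `[SL(2,ℤ) : Γ₀(N)]`.
-/
import Mathlib
import Fermat.Agent.S24.Bridge.Lift
import Fermat.Agent.S24.FunctionDegree
import Fermat.Agent.S24.DegreeBound
import Fermat.Agent.S24.FamilyFinite

set_option autoImplicit false

open UpperHalfPlane ModularForm Filter Topology Function Complex
open scoped MatrixGroups IntermediateField
open Fermat.Agent.S23.QF (IsQFun)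

namespace Fermat.Agent.S24

/-- `Q̄` -/
abbrev Kbar : Type := AlgebraicClosure ℚ

/-- the prelude function field of `X₀(N)` over `Q̄`, as a type -/
abbrev Fbar (N : ℕ) : Type := ↥(ModularCurve.modularFunctionFieldBar N)

/-- `ℂ` as a `Q̄`-algebra via `br_iota`; use as `attribute [local instance] br_algebra`
(definitionally the scoped instance `Br.br_algebraQbarC`). -/
@[reducible] noncomputable def br_algebra : Algebra Kbar ℂ := Br.br_algebraQbarC

attribute [local instance] br_algebra

/-- `j` with `Q̄`-coefficients -/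
noncomputable def br_jqK : LaurentSeries Kbar := ModularCurve.coeffEmb Kbar ModularCurve.jq

theorem barGen_one : barGen 1 = br_jqK := by
  rw [barGen, ModularCurve.qExpand_one_apply, br_jqK]

theorem br_jqK_mem_A0 (N : ℕ) [NeZero N] : br_jqK ∈ A0 N := by
  rw [← barGen_one]
  exact Algebra.subset_adjoin (barGen_mem_barGens (one_dvd N))

theorem br_jqK_mem (N : ℕ) [NeZero N] : br_jqK ∈ ModularCurve.modularFunctionFieldBar N :=
  A0_le N (br_jqK_mem_A0 N)

/-- the function `j` as an element of the prelude field -/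
noncomputable def br_jBar (N : ℕ) [NeZero N] : Fbar N := ⟨br_jqK, br_jqK_mem N⟩

theorem br_jBar_eq_barGenF (N : ℕ) [NeZero N] : br_jBar N = barGenF N 1 (one_dvd N) :=
  Subtype.ext barGen_one.symm

theorem coe_br_jBar (N : ℕ) [NeZero N] : ((br_jBar N : Fbar N) : LaurentSeries Kbar) = br_jqK := rfl

theorem br_coeff_jqK_pow_self (n : ℕ) : (br_jqK ^ n).coeff (-(n : ℤ)) = 1 := by
  rw [br_jqK, ← map_pow, ModularCurve.coeffEmb_coeff, ModularCurve.coeff_jq_pow_self, map_one]

theorem br_coeff_jqK_pow_of_lt {n : ℕ} {m : ℤ} (hm : m < -(n : ℤ)) : (br_jqK ^ n).coeff m = 0 := by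
  rw [br_jqK, ← map_pow, ModularCurve.coeffEmb_coeff, ModularCurve.coeff_jq_pow_of_lt hm, map_zero]

theorem br_coeff_algebraMap_mul (c : Kbar) (x : LaurentSeries Kbar) (k : ℤ) :
    (algebraMap Kbar (LaurentSeries Kbar) c * x).coeff k = c * x.coeff k := by
  rw [ModularCurve.algebraMap_laurentSeries_eq_single, HahnSeries.coeff_single_mul, sub_zero]

theorem br_coeff_aeval_jqK (p : Polynomial Kbar) :
    (Polynomial.aeval br_jqK p).coeff (-(p.natDegree : ℤ)) = p.leadingCoeff := by
  rw [Polynomial.aeval_def, Polynomial.eval₂_eq_sum_range, HahnSeries.coeff_sum,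
    Finset.sum_range_succ, Finset.sum_eq_zero, zero_add]
  · rw [br_coeff_algebraMap_mul, br_coeff_jqK_pow_self, mul_one]
    rfl
  · intro i hi
    have hlt := Finset.mem_range.mp hi
    rw [br_coeff_algebraMap_mul, br_coeff_jqK_pow_of_lt (by omega), mul_zero]

theorem br_jqK_transcendental : Transcendental Kbar br_jqK := by
  intro h
  obtain ⟨p, hp0, hp⟩ := h
  have := br_coeff_aeval_jqK p
  rw [hp] at this
  simp only [HahnSeries.coeff_zero] at this
  exact hp0 (Polynomial.leadingCoeff_eq_zero.mp this.symm)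

theorem br_aeval_jqK_ne_zero {p : Polynomial Kbar} (hp : p ≠ 0) :
    Polynomial.aeval br_jqK p ≠ 0 := fun h => br_jqK_transcendental ⟨p, hp, h⟩

theorem br_jBar_transcendental (N : ℕ) [NeZero N] : Transcendental Kbar (br_jBar N) := by
  intro h
  apply br_jqK_transcendental
  obtain ⟨p, hp0, hp⟩ := h
  refine ⟨p, hp0, ?_⟩
  have h1 := Polynomial.aeval_algebraMap_apply (LaurentSeries Kbar) (br_jBar N) p
  rw [hp, map_zero] at h1
  exact h1

/-! ### descent of linear relations -/

/-- **descent of linear relations** from `ℂ((q))` to `Q̄((q))`: a `ℂ`-linear relation among the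
images of Laurent series with `Q̄`-coefficients, with a nonzero coefficient at `i₀`, yields a
`Q̄`-linear relation with a nonzero coefficient at `i₀`. -/
theorem br_exists_rel_of_complex_rel {I : Type*} (s : Finset I) (v : I → LaurentSeries Kbar)
    (lam : I → ℂ) (i₀ : I) (h0 : lam i₀ ≠ 0)
    (h : ∑ i ∈ s, HahnSeries.C (lam i) *
      ModularCurve.coeffMap (br_iota : Kbar →+* ℂ) (v i) = 0) :
    ∃ μ : I → Kbar, μ i₀ ≠ 0 ∧
      ∑ i ∈ s, algebraMap Kbar (LaurentSeries Kbar) (μ i) * v i = 0 := by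
  obtain ⟨φ, hφ⟩ : ∃ φ : Module.Dual Kbar ℂ, φ (lam i₀) ≠ 0 := by
    by_contra hcon
    simp only [not_exists, not_not] at hcon
    exact h0 ((Module.forall_dual_apply_eq_zero_iff Kbar (lam i₀)).mp hcon)
  refine ⟨fun i => φ (lam i), hφ, ?_⟩
  ext k
  rw [HahnSeries.coeff_sum, HahnSeries.coeff_zero]
  have hk := congrArg (fun x : LaurentSeries ℂ => x.coeff k) h
  simp only [HahnSeries.coeff_sum, HahnSeries.coeff_zero] at hk
  have hk2 : ∑ i ∈ s, (v i).coeff k • lam i = 0 := by
    rw [← hk]
    refine Finset.sum_congr rfl fun i _ => ?_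
    rw [HahnSeries.C_apply, HahnSeries.coeff_single_mul, sub_zero, ModularCurve.coeffMap_coeff,
      Algebra.smul_def, mul_comm]
    rfl
  have hk3 := congrArg φ hk2
  rw [map_sum, map_zero] at hk3
  rw [← hk3]
  refine Finset.sum_congr rfl fun i _ => ?_
  rw [br_coeff_algebraMap_mul, map_smul, smul_eq_mul, mul_comm]

/-! ### Laurent expansions of polynomials in `j` -/

theorem br_coeffMap_jqK : ModularCurve.coeffMap (br_iota : Kbar →+* ℂ) br_jqK = br_jqC := by
  rw [br_jqK, br_coeffMap_iota_coeffEmb, br_jqC]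

theorem br_HasLaurentQ.pow {g : ℍ → ℂ} {f : LaurentSeries ℂ} (h : br_HasLaurentQ g f) (n : ℕ) :
    br_HasLaurentQ (g ^ n) (f ^ n) := by
  induction n with
  | zero =>
    have := br_HasLaurentQ.const 1
    rw [map_one] at this
    rw [pow_zero, pow_zero]
    exact this
  | succ n ih => rw [pow_succ, pow_succ]; exact ih.mul h

theorem br_HasLaurentQ.sum {I : Type*} (s : Finset I) {g : I → ℍ → ℂ} {f : I → LaurentSeries ℂ}
    (h : ∀ i ∈ s, br_HasLaurentQ (g i) (f i)) :
    br_HasLaurentQ (∑ i ∈ s, g i) (∑ i ∈ s, f i) := by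
  classical
  induction s using Finset.induction_on with
  | empty =>
    have := br_HasLaurentQ.const 0
    rw [map_zero] at this
    rw [Finset.sum_empty, Finset.sum_empty]
    exact this
  | insert a s ha ih =>
    rw [Finset.sum_insert ha, Finset.sum_insert ha]
    exact (h a (Finset.mem_insert_self a s)).add
      (ih fun i hi => h i (Finset.mem_insert_of_mem hi))

/-! ### the algebraic relation of degree `ψ(N)` for elements of `A0 N` -/

/-- the index `[SL(2,ℤ) : Γ₀(N)]` in the form used by `exists_monic_relation` -/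
noncomputable def br_psi (N : ℕ) : ℕ := Nat.card (𝒮ℒ ⧸ (Subgroup.subgroupOf (G0 N) 𝒮ℒ))

theorem br_relation_A0 (N : ℕ) [NeZero N] (a : A0 N) :
    ∃ c : ℕ → Polynomial Kbar, c 0 ≠ 0 ∧
      ∑ r ∈ Finset.range (br_psi N + 1),
        Polynomial.aeval br_jqK (c r) * (a : LaurentSeries Kbar) ^ (br_psi N - r) = 0 := by
  obtain ⟨P, hP0, hP⟩ := exists_monic_relation (br_an_isWeakModFun N a)
  change ∀ z : ℍ, ∑ r ∈ Finset.range (br_psi N + 1), (-1) ^ r * Polynomial.eval (kleinJ z) (P r) *
    ((br_an N a : jdAlgebra N) : ℍ → ℂ) z ^ (br_psi N - r) = 0 at hP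
  set n := br_psi N with hn
  set h : ℍ → ℂ := ((br_an N a : jdAlgebra N) : ℍ → ℂ) with hh
  -- bound on the degrees
  set D := (Finset.range (n + 1)).sup (fun r => (P r).natDegree) + 1 with hD
  have hdeg : ∀ r ∈ Finset.range (n + 1), (P r).natDegree < D := fun r hr =>
    Nat.lt_succ_of_le (Finset.le_sup (f := fun r => (P r).natDegree) hr)
  -- index set
  let s : Finset (ℕ × ℕ) := Finset.range D ×ˢ Finset.range (n + 1)
  let lam : ℕ × ℕ → ℂ := fun i => (-1) ^ i.2 * (P i.2).coeff i.1
  let v : ℕ × ℕ → LaurentSeries Kbar :=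
    fun i => br_jqK ^ i.1 * (a : LaurentSeries Kbar) ^ (n - i.2)
  have hlam0 : lam (0, 0) ≠ 0 := by simp [lam, hP0]
  have hrel : ∑ i ∈ s, HahnSeries.C (lam i) *
      ModularCurve.coeffMap (br_iota : Kbar →+* ℂ) (v i) = 0 := by
    have hL : br_HasLaurentQ (∑ i ∈ s, (fun _ => lam i) * (kleinJ ^ i.1 * h ^ (n - i.2)))
        (∑ i ∈ s, HahnSeries.C (lam i) *
          ModularCurve.coeffMap (br_iota : Kbar →+* ℂ) (v i)) := by
      refine br_HasLaurentQ.sum s fun i _ => (br_HasLaurentQ.const _).mul ?_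
      simp only [v, map_mul, map_pow, br_coeffMap_jqK]
      exact (br_HasLaurentQ_kleinJ.pow _).mul ((br_an_spec N a).pow _)
    refine hL.eq_zero_iff.mp ?_
    ext z
    rw [Finset.sum_apply, Pi.zero_apply, Finset.sum_product_right]
    rw [← hP z]
    refine Finset.sum_congr rfl fun r hr => ?_
    rw [Polynomial.eval_eq_sum_range' (hdeg r hr), Finset.mul_sum, Finset.sum_mul]
    refine Finset.sum_congr rfl fun k _ => ?_
    simp only [Pi.mul_apply, Pi.pow_apply, lam]
    ring
  obtain ⟨μ, hμ0, hμ⟩ := br_exists_rel_of_complex_rel s v lam (0, 0) hlam0 hrel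
  refine ⟨fun r => ∑ k ∈ Finset.range D, Polynomial.monomial k (μ (k, r)), ?_, ?_⟩
  · intro h0
    have h1 := congrArg (fun p => Polynomial.coeff p 0) h0
    simp only [Polynomial.finsetSum_coeff, Polynomial.coeff_monomial, Polynomial.coeff_zero,
      Finset.sum_ite_eq', Finset.mem_range] at h1
    rw [if_pos (by rw [hD]; exact Nat.succ_pos _)] at h1
    exact hμ0 h1
  · rw [← hμ, Finset.sum_product_right]
    refine Finset.sum_congr rfl fun r _ => ?_
    rw [map_sum, Finset.sum_mul]
    refine Finset.sum_congr rfl fun k _ => ?_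
    rw [Polynomial.aeval_monomial]
    simp only [v]
    ring

/-! ### clearing denominators -/

/-- from an algebraic relation for `s` with coefficients in a subalgebra `A ∋ s`, an inverse of
`s` up to one of the (nonzero) coefficients -/
theorem br_exists_mul_eq_coeff {K L : Type*} [Field K] [Field L] [Algebra K L]
    (A : Subalgebra K L) {s : L} (hs : s ∈ A) (hs0 : s ≠ 0) :
    ∀ (n : ℕ) (C : ℕ → L), (∀ r, C r ∈ A) → (∃ r ≤ n, C r ≠ 0) →
      ∑ r ∈ Finset.range (n + 1), C r * s ^ (n - r) = 0 →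
      ∃ b ∈ A, ∃ r, C r ≠ 0 ∧ s * b = C r := by
  intro n
  induction n with
  | zero =>
    intro C _ hex h
    obtain ⟨r, hr, hr0⟩ := hex
    obtain rfl : r = 0 := Nat.le_zero.mp hr
    simp only [zero_add, Finset.range_one, Finset.sum_singleton, Nat.sub_self, pow_zero,
      mul_one] at h
    exact absurd h hr0
  | succ n ih =>
    intro C hC hex h
    rw [Finset.sum_range_succ] at h
    have e : ∑ r ∈ Finset.range (n + 1), C r * s ^ (n + 1 - r)
        = s * ∑ r ∈ Finset.range (n + 1), C r * s ^ (n - r) := by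
      rw [Finset.mul_sum]
      refine Finset.sum_congr rfl fun r hr => ?_
      have : n + 1 - r = (n - r) + 1 := by have := Finset.mem_range.mp hr; omega
      rw [this, pow_succ]; ring
    rw [e, Nat.sub_self, pow_zero, mul_one] at h
    by_cases hlast : C (n + 1) = 0
    · rw [hlast, add_zero] at h
      have h' := (mul_eq_zero.mp h).resolve_left hs0
      refine ih C hC ?_ h'
      obtain ⟨r, hr, hr0⟩ := hex
      refine ⟨r, ?_, hr0⟩
      rcases Nat.lt_or_ge r (n + 1) with h1 | h1
      · omega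
      · have : r = n + 1 := le_antisymm hr h1
        rw [this] at hr0; exact absurd hlast hr0
    · refine ⟨-∑ r ∈ Finset.range (n + 1), C r * s ^ (n - r), ?_, n + 1, hlast, ?_⟩
      · exact neg_mem (sum_mem fun r _ => mul_mem (hC r) (pow_mem hs _))
      · linear_combination (-1 : L) * h

theorem br_aeval_jqK_mem_A0 (N : ℕ) [NeZero N] (p : Polynomial Kbar) :
    Polynomial.aeval br_jqK p ∈ A0 N := by
  have := Polynomial.aeval_subalgebra_coe p (A0 N) ⟨br_jqK, br_jqK_mem_A0 N⟩
  rw [← this]
  exact Subtype.property _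

/-- every element of the prelude field is `a / d` with `a ∈ A0 N` and `0 ≠ d ∈ Q̄[j]` -/
theorem br_exists_div_poly (N : ℕ) [NeZero N] {x : LaurentSeries Kbar}
    (hx : x ∈ ModularCurve.modularFunctionFieldBar N) :
    ∃ a ∈ A0 N, ∃ d : Polynomial Kbar, d ≠ 0 ∧ x * Polynomial.aeval br_jqK d = a := by
  obtain ⟨r, hr, s, hs, hs0, rfl⟩ := br_exists_div N hx
  obtain ⟨c, hc0, hc⟩ := br_relation_A0 N ⟨s, hs⟩
  obtain ⟨b, hb, r₀, hr₀, hsb⟩ := br_exists_mul_eq_coeff (A0 N) hs hs0 (br_psi N)
    (fun r => Polynomial.aeval br_jqK (c r)) (fun r => br_aeval_jqK_mem_A0 N (c r))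
    ⟨0, Nat.zero_le _, br_aeval_jqK_ne_zero hc0⟩ hc
  refine ⟨r * b, mul_mem hr hb, c r₀, ?_, ?_⟩
  · rintro h0
    rw [h0, map_zero] at hr₀
    exact hr₀ rfl
  · rw [← hsb]
    field_simp

/-! ### the upper bound `[Fbar N : Q̄(j)] ≤ ψ(N)` -/

/-- the embedding of `Q̄(j) ⊆ Fbar N` into `Q̄((q))` -/
noncomputable def br_EtoL (N : ℕ) [NeZero N] : Kbar⟮br_jBar N⟯ →ₐ[Kbar] LaurentSeries Kbar :=
  ((ModularCurve.modularFunctionFieldBar N).val).comp (Kbar⟮br_jBar N⟯.val)

theorem br_EtoL_aeval (N : ℕ) [NeZero N] (q : Polynomial Kbar) :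
    br_EtoL N (Polynomial.aeval (IntermediateField.AdjoinSimple.gen Kbar (br_jBar N)) q)
      = Polynomial.aeval br_jqK q := by
  exact (Polynomial.aeval_algHom_apply (br_EtoL N)
    (IntermediateField.AdjoinSimple.gen Kbar (br_jBar N)) q).symm

theorem br_exists_poly (N : ℕ) [NeZero N] (x : Fbar N) :
    ∃ p : Polynomial Kbar⟮br_jBar N⟯, p ≠ 0 ∧ p.natDegree ≤ br_psi N ∧
      Polynomial.aeval x p = 0 := by
  obtain ⟨a, ha, d, hd0, hxd⟩ := br_exists_div_poly N x.2
  obtain ⟨c, hc0, hc⟩ := br_relation_A0 N ⟨a, ha⟩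
  set n := br_psi N with hn
  let e : ℕ → Kbar⟮br_jBar N⟯ := fun r =>
    Polynomial.aeval (IntermediateField.AdjoinSimple.gen Kbar (br_jBar N)) (c r * d ^ (n - r))
  have he : ∀ r, br_EtoL N (e r) = Polynomial.aeval br_jqK (c r * d ^ (n - r)) :=
    fun r => br_EtoL_aeval N _
  refine ⟨∑ r ∈ Finset.range (n + 1), Polynomial.C (e r) * Polynomial.X ^ (n - r), ?_, ?_, ?_⟩
  · intro h0
    have h1 := congrArg (fun p => Polynomial.coeff p n) h0
    simp only [Polynomial.finsetSum_coeff, Polynomial.coeff_C_mul_X_pow,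
      Polynomial.coeff_zero] at h1
    rw [Finset.sum_eq_single 0] at h1
    · rw [if_pos (by simp)] at h1
      have h2 := he 0
      rw [h1, map_zero] at h2
      exact br_aeval_jqK_ne_zero (mul_ne_zero hc0 (pow_ne_zero _ hd0)) h2.symm
    · intro r hr hr0
      have := Finset.mem_range.mp hr
      rw [if_neg (by omega)]
    · intro h
      exact absurd (Finset.mem_range.mpr (Nat.succ_pos n)) h
  · refine Polynomial.natDegree_sum_le_of_forall_le _ _ fun r _ => ?_
    exact (Polynomial.natDegree_C_mul_X_pow_le _ _).trans (Nat.sub_le _ _)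
  · have hinj : Function.Injective (ModularCurve.modularFunctionFieldBar N).val :=
      Subtype.val_injective
    apply hinj
    rw [map_zero, map_sum, map_sum, ← hc]
    refine Finset.sum_congr rfl fun r _ => ?_
    rw [map_mul, map_pow, Polynomial.aeval_C, Polynomial.aeval_X, map_mul, map_pow]
    have h3 : (ModularCurve.modularFunctionFieldBar N).val
        (algebraMap Kbar⟮br_jBar N⟯ (Fbar N) (e r)) = br_EtoL N (e r) := rfl
    rw [h3, he r, map_mul, map_pow]
    have h4 : (ModularCurve.modularFunctionFieldBar N).val x = (x : LaurentSeries Kbar) := rfl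
    have h5 : ((⟨a, ha⟩ : A0 N) : LaurentSeries Kbar)
        = (x : LaurentSeries Kbar) * Polynomial.aeval br_jqK d := hxd.symm
    rw [h4, h5, mul_pow]
    ring

theorem br_finrank_le (N : ℕ) [NeZero N] :
    FiniteDimensional Kbar⟮br_jBar N⟯ (Fbar N) ∧
      Module.finrank Kbar⟮br_jBar N⟯ (Fbar N) ≤ br_psi N := by
  refine finrank_le_of_forall_natDegree_minpoly_le (br_psi N) (fun x => ?_) (fun x => ?_)
  · obtain ⟨p, hp0, -, hp⟩ := br_exists_poly N x
    exact IsAlgebraic.isIntegral (⟨p, hp0, hp⟩ : IsAlgebraic Kbar⟮br_jBar N⟯ x)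
  · obtain ⟨p, hp0, hpn, hp⟩ := br_exists_poly N x
    exact (Polynomial.natDegree_le_natDegree (minpoly.degree_le_of_ne_zero _ x hp0 hp)).trans hpn

/-! ### the index -/

theorem br_psi_eq (N : ℕ) : br_psi N = Nat.card (Comb.Q N) := by
  have hf : Function.Injective (Matrix.SpecialLinearGroup.mapGL ℝ : SL(2, ℤ) →* GL (Fin 2) ℝ) :=
    Matrix.SpecialLinearGroup.mapGL_injective
  rw [br_psi, ← Subgroup.index_eq_card, ← Subgroup.relIndex, MonoidHom.range_eq_map]
  rw [Subgroup.relIndex_map_map_of_injective _ _ hf, Subgroup.relIndex_top_right,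
    Subgroup.index_eq_card]

/-! ### the lower bound -/

/-- the field on which two `K`-algebra homomorphisms of fields agree -/
def br_eqLocus {K F L : Type*} [Field K] [Field F] [Field L] [Algebra K F] [Algebra K L]
    (f g : F →ₐ[K] L) : IntermediateField K F where
  carrier := {y | f y = g y}
  mul_mem' := fun {a b} (ha : f a = g a) (hb : f b = g b) =>
    show f (a * b) = g (a * b) by rw [map_mul, map_mul, ha, hb]
  one_mem' := show f 1 = g 1 by rw [map_one, map_one]
  add_mem' := fun {a b} (ha : f a = g a) (hb : f b = g b) =>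
    show f (a + b) = g (a + b) by rw [map_add, map_add, ha, hb]
  zero_mem' := show f 0 = g 0 by rw [map_zero, map_zero]
  algebraMap_mem' := fun r => show f (algebraMap K F r) = g (algebraMap K F r) by
    rw [AlgHom.commutes, AlgHom.commutes]
  inv_mem' := fun a (ha : f a = g a) => show f a⁻¹ = g a⁻¹ by rw [map_inv₀, map_inv₀, ha]

/-- `r` distinct `K`-embeddings of `F` agreeing at `x` force `r ≤ [F : K(x)]` -/
theorem br_card_le_finrank_of_algHoms {K F L ι : Type*} [Field K] [Field F] [Field L]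
    [Algebra K F] [Algebra K L] [Finite ι] (x : F) [FiniteDimensional K⟮x⟯ F]
    (φ : ι → F →ₐ[K] L) (hφ : Function.Injective φ) (y : L) (hx : ∀ i, φ i x = y) :
    Nat.card ι ≤ Module.finrank K⟮x⟯ F := by
  classical
  rcases isEmpty_or_nonempty ι with hι | ⟨⟨i₀⟩⟩
  · simp
  have := Fintype.ofFinite ι
  have hagree : ∀ i, ∀ e : K⟮x⟯, φ i (e : F) = φ i₀ (e : F) := by
    intro i e
    have hle : K⟮x⟯ ≤ br_eqLocus (φ i) (φ i₀) := by
      rw [IntermediateField.adjoin_simple_le_iff]
      show φ i x = φ i₀ x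
      rw [hx, hx]
    exact hle e.2
  let _ : Algebra K⟮x⟯ L := ((φ i₀).comp (K⟮x⟯.val)).toRingHom.toAlgebra
  let φ' : ι → F →ₐ[K⟮x⟯] L := fun i =>
    { (φ i).toRingHom with
      commutes' := fun e => hagree i e }
  have hφ' : Function.Injective φ' := by
    intro i j hij
    apply hφ
    ext f
    exact congrArg (fun ψ : F →ₐ[K⟮x⟯] L => ψ f) hij
  have hli := (linearIndependent_toLinearMap K⟮x⟯ F L).comp φ' hφ'
  have h1 := hli.fintype_card_le_finrank
  rw [Module.finrank_linearMap_self] at h1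
  rw [Nat.card_eq_fintype_card]
  exact h1

/-! ### the degree -/

instance br_finiteDimensional (N : ℕ) [NeZero N] :
    FiniteDimensional Kbar⟮br_jBar N⟯ (Fbar N) := (br_finrank_le N).1

/-- **the degree of `X₀(N) → X(1)`** on the prelude function field (in terms of `br_jBar`) -/
theorem an_finrank_jBar (N : ℕ) [NeZero N] :
    Module.finrank Kbar⟮br_jBar N⟯ (Fbar N) = Nat.card (Comb.Q N) := by
  have hle := (br_finrank_le N).2
  rw [br_psi_eq] at hle
  refine le_antisymm hle ?_
  obtain ⟨φ, p0, hφ, -, hp⟩ := an_family_generic N 2 (by norm_num) (by norm_num)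
  have hfin : Finite (Comb.Q N) := inferInstance
  refine br_card_le_finrank_of_algHoms (br_jBar N) φ hφ
    (p0 + algebraMap Kbar (LaurentSeries ℂ) 2) fun x => ?_
  have h1 := hp x
  rw [map_sub, AlgHom.commutes, sub_eq_iff_eq_add] at h1
  rw [br_jBar_eq_barGenF]
  exact h1

/-! ### the same statements for `ff_jF N = barGenF N 1 _` (the shapes the assembly consumes) -/

/-- `j` is transcendental over `Q̄` -/
theorem an_transcendental (N : ℕ) [NeZero N] :
    Transcendental (AlgebraicClosure ℚ) (ff_jF N) := by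
  have h := br_jBar_transcendental N
  rw [br_jBar_eq_barGenF] at h
  exact h

instance an_finiteDimensional (N : ℕ) [NeZero N] :
    FiniteDimensional (AlgebraicClosure ℚ)⟮ff_jF N⟯ (ModularCurve.modularFunctionFieldBar N) := by
  have h := br_finiteDimensional N
  rw [br_jBar_eq_barGenF] at h
  exact h

/-- **the degree of `X₀(N) → X(1)`** on the prelude function field -/
theorem an_finrank (N : ℕ) [NeZero N] :
    Module.finrank (AlgebraicClosure ℚ)⟮ff_jF N⟯ (ModularCurve.modularFunctionFieldBar N)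
      = Nat.card (Comb.Q N) := by
  have h := an_finrank_jBar N
  rw [br_jBar_eq_barGenF] at h
  exact h

end Fermat.Agent.S24
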