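/-
M3 (S24/S20 cluster), Bridge block: every nonzero element of `A0 N` divides a nonzero polynomial
in `j` (inside `A0 N`); consequently its analytic realisation does not vanish at points `z0` where
`j(z0)` is not in the image of `Q̄`.
-/
import Mathlib
import Fermat.Agent.S24.Bridge.Degree

set_option autoImplicit false

open UpperHalfPlane

namespace Fermat.Agent.S24

attribute [local instance] br_algebra

/-- `j` as an element of `A0 N` -/
noncomputable def br_jA0 (N : ℕ) [NeZero N] : A0 N := ⟨br_jqK, br_jqK_mem_A0 N⟩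

theorem br_an_jA0 (N : ℕ) [NeZero N] : ((br_an N (br_jA0 N) : jdAlgebra N) : ℍ → ℂ) = kleinJ := by
  have h := br_an_barGen N (one_dvd N)
  rw [jd_one] at h
  rw [← h]
  congr 3
  exact Subtype.ext barGen_one.symm

/-- the analytic realisation of a polynomial in `j` -/
theorem br_an_aeval_jA0 (N : ℕ) [NeZero N] (d : Polynomial Kbar) (z : ℍ) :
    ((br_an N (Polynomial.aeval (br_jA0 N) d) : jdAlgebra N) : ℍ → ℂ) z
      = (d.map (br_iota : Kbar →+* ℂ)).eval (kleinJ z) := by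
  let ev : jdAlgebra N →+* ℂ :=
    (Pi.evalRingHom (fun _ : ℍ => ℂ) z).comp (jdAlgebra N).val.toRingHom
  have h1 : ((br_an N (Polynomial.aeval (br_jA0 N) d) : jdAlgebra N) : ℍ → ℂ) z
      = (ev.comp (br_an N)) (Polynomial.aeval (br_jA0 N) d) := rfl
  rw [h1, Polynomial.aeval_def, Polynomial.hom_eval₂, Polynomial.eval_map]
  congr 1
  · ext c
    show ((br_an N (algebraMap Kbar (A0 N) c) : jdAlgebra N) : ℍ → ℂ) z = br_iota c
    rw [br_an_algebraMap]
  · show ((br_an N (br_jA0 N) : jdAlgebra N) : ℍ → ℂ) z = kleinJ z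
    rw [br_an_jA0]

/-- every nonzero `b ∈ A0 N` divides (in `A0 N`) a nonzero polynomial in `j` -/
theorem br_exists_mul_eq_aeval (N : ℕ) [NeZero N] (b : A0 N) (hb : b ≠ 0) :
    ∃ (b' : A0 N) (d : Polynomial Kbar), d ≠ 0 ∧ b * b' = Polynomial.aeval (br_jA0 N) d := by
  obtain ⟨c, hc0, hc⟩ := br_relation_A0 N b
  have hb0 : (b : LaurentSeries Kbar) ≠ 0 := fun h => hb (Subtype.ext h)
  obtain ⟨b', hb', r₀, hr₀, hsb⟩ := br_exists_mul_eq_coeff (A0 N) b.2 hb0 (br_psi N)
    (fun r => Polynomial.aeval br_jqK (c r)) (fun r => br_aeval_jqK_mem_A0 N (c r))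
    ⟨0, Nat.zero_le _, br_aeval_jqK_ne_zero hc0⟩ hc
  refine ⟨⟨b', hb'⟩, c r₀, ?_, ?_⟩
  · rintro h0
    rw [h0, map_zero] at hr₀
    exact hr₀ rfl
  · apply Subtype.ext
    rw [Polynomial.aeval_subalgebra_coe]
    exact hsb

/-- a root in `ℂ` of a nonzero polynomial with coefficients in `Q̄` lies in the image of `Q̄` -/
theorem br_mem_range_of_root {d : Polynomial Kbar} (hd : d ≠ 0) {w : ℂ}
    (hw : (d.map (br_iota : Kbar →+* ℂ)).eval w = 0) : ∃ c : Kbar, br_iota c = w := by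
  obtain ⟨c, hc⟩ := (IsAlgClosed.splits d).mem_range_of_isRoot hd
    (i := (br_iota : Kbar →+* ℂ)) (x := w) hw
  exact ⟨c, hc⟩

/-- the analytic realisation of a nonzero element of `A0 N` does not vanish at a point `z0`
with `j(z0)` transcendental over `Q̄` -/
theorem br_an_ne_zero_of_transcendental (N : ℕ) [NeZero N] (b : A0 N) (hb : b ≠ 0) (z0 : ℍ)
    (hz0 : ∀ c : Kbar, br_iota c ≠ kleinJ z0) :
    ((br_an N b : jdAlgebra N) : ℍ → ℂ) z0 ≠ 0 := by
  obtain ⟨b', d, hd, hbb⟩ := br_exists_mul_eq_aeval N b hb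
  intro h0
  have h1 := br_an_aeval_jA0 N d z0
  rw [← hbb, map_mul] at h1
  have h2 : ((br_an N b * br_an N b' : jdAlgebra N) : ℍ → ℂ) z0
      = ((br_an N b : jdAlgebra N) : ℍ → ℂ) z0 * ((br_an N b' : jdAlgebra N) : ℍ → ℂ) z0 := rfl
  rw [h2, h0, zero_mul] at h1
  obtain ⟨c, hc⟩ := br_mem_range_of_root hd h1.symm
  exact hz0 c hc

end Fermat.Agent.S24
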