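/-
M3 (S24/S20 cluster), Bridge block: linear disjointness of `Q̄((q))` and `ℂ` over `Q̄`:
`Q̄`-linearly independent Laurent series stay `ℂ`-linearly independent after base change of the
coefficients along `br_iota : Q̄ → ℂ`.
-/
import Mathlib
import Fermat.Agent.S24.Bridge.Degree

set_option autoImplicit false

namespace Fermat.Agent.S24

attribute [local instance] br_algebra

/-- `Q̄`-linearly independent Laurent series with `Q̄`-coefficients stay `ℂ`-linearly independent
after applying `br_iota` to the coefficients. -/
theorem br_linearIndependent_coeffMap {ι : Type*} (h : ι → LaurentSeries Kbar)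
    (hli : LinearIndependent Kbar h) :
    LinearIndependent ℂ (fun i => ModularCurve.coeffMap (br_iota : Kbar →+* ℂ) (h i)) := by
  classical
  rw [linearIndependent_iff']
  intro s g hg i₀ hi₀
  by_contra h0
  have hrel : ∑ i ∈ s, HahnSeries.C (g i) *
      ModularCurve.coeffMap (br_iota : Kbar →+* ℂ) (h i) = 0 := by
    rw [← hg]
    refine Finset.sum_congr rfl fun i _ => ?_
    rw [HahnSeries.C_mul_eq_smul]
  obtain ⟨μ, hμ0, hμ⟩ := br_exists_rel_of_complex_rel s h g i₀ h0 hrel
  have hμ' : ∑ i ∈ s, μ i • h i = 0 := by
    rw [← hμ]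
    refine Finset.sum_congr rfl fun i _ => ?_
    rw [← HahnSeries.C_mul_eq_smul, HahnSeries.C_apply,
      ModularCurve.algebraMap_laurentSeries_eq_single]
  exact hμ0 (linearIndependent_iff'.mp hli s μ hμ' i₀ hi₀)

/-- the same for finitely many elements of the prelude field `Fbar N` -/
theorem br_linearIndependent_coeffMap_Fbar (N : ℕ) [NeZero N] {ι : Type*} (h : ι → Fbar N)
    (hli : LinearIndependent Kbar h) :
    LinearIndependent ℂ
      (fun i => ModularCurve.coeffMap (br_iota : Kbar →+* ℂ) ((h i : Fbar N) : LaurentSeries Kbar)) := by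
  refine br_linearIndependent_coeffMap (fun i => ((h i : Fbar N) : LaurentSeries Kbar)) ?_
  let f : Fbar N →ₗ[Kbar] LaurentSeries Kbar :=
    { toFun := fun x => (x : LaurentSeries Kbar)
      map_add' := fun _ _ => rfl
      map_smul' := fun c x => by
        rw [RingHom.id_apply, ← HahnSeries.C_mul_eq_smul, HahnSeries.C_apply, Algebra.smul_def]
        show algebraMap Kbar (LaurentSeries Kbar) c * (x : LaurentSeries Kbar) = _
        rw [ModularCurve.algebraMap_laurentSeries_eq_single] }
  have hinj : Function.Injective f := Subtype.val_injective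
  exact hli.map' f (LinearMap.ker_eq_bot.mpr hinj)

end Fermat.Agent.S24
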